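/-
ORD (S33), chapter OLD, brick O1 (helper69): **flatness of the finite levels of a saturated Galois
stable lattice in `A ⊗ T_p J`**, from the literal conclusion of S19 for `J`.

Setting: `p` a prime, `J` an abelian group with an action of `G_ℚ` (think `J = J₀(M)(ℚ̄)`, `p ∤ M`),
`T = TateModule p J`, `A` a `ℤ_p`-algebra which is finite free as a `ℤ_p`-module (basis `b`),
`Lam ≤ A ⊗[ℤ_p] T` an `A`-submodule which is `p`-saturated and stable under `G_ℚ`.

* `coord b i : A ⊗[ℤ_p] T →ₗ[ℤ_p] T`, the coordinates w.r.t. `b`; `sum_tmul_coord`, `coord_baseChange`;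
* `torsAct`, `flatModel_of_S19` : the literal S19 conclusion as a `FlatModel68.FlatModel`;
* `LocalFlatModel.pi` : finite powers of local flat models;
* `levelHom n : Lam →+ (Fin r → J[pⁿ])`, with kernel `pⁿ Lam` (`levelHom_eq_zero_iff`) and
  equivariant (`levelHom_rho`);
* `localFlatModel_range` : the image of `levelHom n` (`≅ Lam / pⁿ Lam`) is a local flat model;
* `localFlatModel_quotient` : **O1**, `Lam ⧸ pⁿ Lam` is a local flat model for `Gal(ℚ̄_p/ℚ_p)`.
-/
import Mathlib
import Fermat.Agent.ES.J.TateModule13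
import Fermat.Agent.TW.FF.FlatModel68
import Fermat.Agent.TW.FF.LocalOfGlobal68
import Fermat.Agent.TW.FF.Closure68

set_option autoImplicit false
set_option linter.unusedSectionVars false

noncomputable section

open TensorProduct

namespace Fermat.Agent.ORD.Old.FlatEigen69

open Fermat.Agent.ES.J.TateModule13 Fermat.Agent.TW.FF.FlatModel68
open Fermat.Agent.TW.FF.Closure68

/-! ### coordinates of `A ⊗ T` with respect to a basis of `A` -/

section Coord

variable {R A T : Type*} [CommRing R] [CommRing A] [Algebra R A] [AddCommGroup T] [Module R T]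
variable {ι : Type*} (b : Module.Basis ι R A)

/-- the `i`-th coordinate `A ⊗[R] T → T`, `a ⊗ t ↦ (b.repr a i) • t`. -/
def coord (i : ι) : A ⊗[R] T →ₗ[R] T :=
  (TensorProduct.lid R T).toLinearMap ∘ₗ (b.coord i).rTensor T

theorem coord_tmul (i : ι) (a : A) (t : T) : coord b i (a ⊗ₜ[R] t) = b.repr a i • t := by
  simp [coord]

/-- the coordinates commute with base-changed endomorphisms. -/
theorem coord_baseChange (f : T →ₗ[R] T) (i : ι) (w : A ⊗[R] T) :
    coord b i (f.baseChange A w) = f (coord b i w) := by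
  induction w using TensorProduct.induction_on with
  | zero => simp
  | tmul a t => simp [coord_tmul]
  | add x y hx hy => simp only [map_add, hx, hy]

/-- reconstruction of an element from its coordinates. -/
theorem sum_tmul_coord [Fintype ι] (w : A ⊗[R] T) : ∑ i, b i ⊗ₜ[R] coord b i w = w := by
  induction w using TensorProduct.induction_on with
  | zero => simp
  | tmul a t =>
    simp only [coord_tmul]
    have h1 : ∀ i, b i ⊗ₜ[R] (b.repr a i • t) = (b.repr a i • b i) ⊗ₜ[R] t := fun i => by
      rw [TensorProduct.tmul_smul, TensorProduct.smul_tmul']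
    simp only [h1]
    rw [← TensorProduct.sum_tmul, b.sum_repr]
  | add x y hx hy =>
    simp only [map_add, TensorProduct.tmul_add, Finset.sum_add_distrib, hx, hy]

/-- scalars from `R` acting through `A`. -/
theorem algebraMap_smul_tensor (r : R) (w : A ⊗[R] T) : (algebraMap R A r) • w = r • w :=
  algebraMap_smul A r w

/-- an element all of whose coordinates are divisible by `r` is divisible by `r`. -/
theorem exists_eq_smul_of_coord [Fintype ι] (r : R) (w : A ⊗[R] T)
    (h : ∀ i, ∃ t : T, coord b i w = r • t) : ∃ w' : A ⊗[R] T, w = r • w' := by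
  choose t ht using h
  refine ⟨∑ i, b i ⊗ₜ[R] t i, ?_⟩
  rw [Finset.smul_sum]
  conv_lhs => rw [← sum_tmul_coord b w]
  refine Finset.sum_congr rfl fun i _ => ?_
  rw [ht i, TensorProduct.tmul_smul]

/-- `A ⊗ T` is `r`-torsion free if `T` is. -/
theorem eq_zero_of_smul_eq_zero_tensor [Fintype ι] (b : Module.Basis ι R A) (r : R)
    (hr : ∀ t : T, r • t = 0 → t = 0) (w : A ⊗[R] T) (h : r • w = 0) : w = 0 := by
  rw [← sum_tmul_coord b w]
  refine Finset.sum_eq_zero fun i _ => ?_
  have : coord b i w = 0 := by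
    apply hr
    rw [← map_smul, h, map_zero]
  rw [this, TensorProduct.tmul_zero]

end Coord

/-! ### the literal S19 conclusion as a `FlatModel` -/

section S19

variable (p : ℕ) (J : Type) [AddCommGroup J] [DistribMulAction GQ J]

/-- the `pᵏ`-torsion of `J`, in the form used by the frozen S19. -/
abbrev Jtors (k : ℕ) : Type := ↥(Submodule.torsionBy ℤ J ((p : ℤ) ^ k))

omit [DistribMulAction GQ J] in
variable {p J} in
theorem mem_torsionBy_pow_iff (k : ℕ) (y : J) :
    y ∈ Submodule.torsionBy ℤ J ((p : ℤ) ^ k) ↔ p ^ k • y = 0 := by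
  rw [Submodule.mem_torsionBy_iff, ← Nat.cast_pow, natCast_zsmul]

/-- the Galois action on `J[pᵏ]`. -/
def torsAct (k : ℕ) (σ : GQ) (y : Jtors p J k) : Jtors p J k :=
  ⟨σ • (y : J), by
    have := y.2
    rw [mem_torsionBy_pow_iff] at this ⊢
    rw [← smul_comm σ (p ^ k) (y : J), this, smul_zero]⟩

@[simp] theorem coe_torsAct (k : ℕ) (σ : GQ) (y : Jtors p J k) :
    ((torsAct p J k σ y : Jtors p J k) : J) = σ • (y : J) := rfl

/-- The literal conclusion of the frozen S19 (with `JZero M` replaced by `J`, `ℓ` by `p`). -/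
def S19Conclusion : Prop :=
  ∀ k : ℕ, ∃ (H : Type) (_ : CommRing H) (_ : HopfAlgebra (GaloisRep.ratLocalizedAt p) H),
    Module.Finite (GaloisRep.ratLocalizedAt p) H ∧ Module.Flat (GaloisRep.ratLocalizedAt p) H ∧
    Coalgebra.IsCocomm (GaloisRep.ratLocalizedAt p) H ∧
    ∃ e : WithConv (H →ₐ[GaloisRep.ratLocalizedAt p] AlgebraicClosure ℚ) ≃
        ↥(Submodule.torsionBy ℤ J ((p : ℤ) ^ k)),
      (∀ f g, e (f * g) = e f + e g) ∧
      ∀ (σ : AlgebraicClosure ℚ ≃ₐ[ℚ] AlgebraicClosure ℚ)
        (f g : WithConv (H →ₐ[GaloisRep.ratLocalizedAt p] AlgebraicClosure ℚ)),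
        (∀ h : H, g h = σ (f h)) → ((e g : J)) = σ • (e f : J)

variable {p J}

/-- the literal S19 conclusion gives `FlatModel`s of all `J[pᵏ]`. -/
theorem flatModel_of_S19 (h : S19Conclusion p J) (k : ℕ) :
    FlatModel p (Jtors p J k) (torsAct p J k) := by
  obtain ⟨H, i1, i2, hfin, hflat, hco, e, hmul, hact⟩ := h k
  exact ⟨H, i1, i2, hfin, hflat, hco, e, hmul, fun σ f g hfg => Subtype.ext (hact σ f g hfg)⟩

end S19

/-! ### finite powers of local flat models -/

section Pi

variable {p : ℕ} [Fact p.Prime]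

/-- the trivial group is a local flat model (as soon as there is one local flat model). -/
theorem LocalFlatModel.of_subsingleton {M : Type} [AddCommGroup M] {act : GQp p → M → M}
    (h : LocalFlatModel p M act) (N : Type) [AddCommGroup N] [Subsingleton N]
    (actN : GQp p → N → N) : LocalFlatModel p N actN := by
  have h0 : LocalFlatModel p (⊥ : AddSubgroup M) (fun _ n => n) := by
    refine LocalFlatModel.sub h ⊥ ?_ _ ?_
    · intro τ n hn
      rw [AddSubgroup.mem_bot] at hn ⊢
      subst hn
      have := LocalFlatModel.act_add h τ 0 0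
      rw [add_zero] at this
      exact left_eq_add.mp this
    · intro τ n
      have hn : (n : M) = 0 := AddSubgroup.mem_bot.mp n.2
      rw [hn]
      have := LocalFlatModel.act_add h τ 0 0
      rw [add_zero] at this
      exact (left_eq_add.mp this).symm
  let φ : (⊥ : AddSubgroup M) ≃+ N :=
    { toFun := fun _ => 0
      invFun := fun _ => 0
      left_inv := fun _ => Subsingleton.elim _ _
      right_inv := fun _ => Subsingleton.elim _ _
      map_add' := fun _ _ => Subsingleton.elim _ _ }
  exact LocalFlatModel.of_addEquiv φ (fun _ _ => Subsingleton.elim _ _) h0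

/-- **finite powers of a local flat model.** -/
theorem LocalFlatModel.pi {M : Type} [AddCommGroup M] {act : GQp p → M → M}
    (h : LocalFlatModel p M act) (r : ℕ) :
    LocalFlatModel p (Fin r → M) (fun τ x i => act τ (x i)) := by
  induction r with
  | zero => exact LocalFlatModel.of_subsingleton h _ _
  | succ r ih =>
    have h2 := LocalFlatModel.prod h ih
    let φ : M × (Fin r → M) ≃+ (Fin (r + 1) → M) :=
      { toFun := fun y => Fin.cons y.1 y.2
        invFun := fun x => (x 0, fun i => x i.succ)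
        left_inv := fun y => by simp
        right_inv := fun x => Fin.cons_self_tail x
        map_add' := fun y y' => by
          funext i
          refine Fin.cases ?_ (fun j => ?_) i <;> simp }
    refine LocalFlatModel.of_addEquiv φ (fun τ y => ?_) h2
    funext i
    refine Fin.cases ?_ (fun j => ?_) i
    · rfl
    · rfl

end Pi

/-! ### the level maps of a lattice in `A ⊗ T_p J` -/

section Level

variable {p : ℕ} [Fact p.Prime] {J : Type} [AddCommGroup J] [DistribMulAction GQ J]
variable {A : Type} [CommRing A] [Algebra ℤ_[p] A]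

/-- the Galois action on `A ⊗ T_p J`. -/
abbrev rhoW (σ : GQ) : Module.End A (A ⊗[ℤ_[p]] TateModule p J) := (rho p J σ).baseChange A

omit [DistribMulAction GQ J] in
/-- `p ∈ A` acts on `A ⊗ T` as `p ∈ ℤ_p`. -/
theorem natCast_pow_smul (n : ℕ) (w : A ⊗[ℤ_[p]] TateModule p J) :
    ((p : A) ^ n) • w = ((p : ℤ_[p]) ^ n) • w := by
  rw [← algebraMap_smul A ((p : ℤ_[p]) ^ n) w, map_pow, map_natCast]

omit [DistribMulAction GQ J] in
/-- the projection `T → J[pⁿ]`. -/
def projT (n : ℕ) : TateModule p J →+ Jtors p J n where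
  toFun x := ⟨proj n x, (mem_torsionBy_pow_iff n _).2 (pow_smul_proj n x)⟩
  map_zero' := Subtype.ext (map_zero _)
  map_add' x y := Subtype.ext (map_add _ x y)

omit [DistribMulAction GQ J] in
@[simp] theorem coe_projT (n : ℕ) (x : TateModule p J) : ((projT n x : Jtors p J n) : J) = proj n x :=
  rfl

variable {r : ℕ} (b : Module.Basis (Fin r) ℤ_[p] A)

omit [DistribMulAction GQ J] in
/-- the level-`n` map on `A ⊗ T`: coordinates, then projection to `J[pⁿ]`. -/
def levelW (n : ℕ) : A ⊗[ℤ_[p]] TateModule p J →+ (Fin r → Jtors p J n) where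
  toFun w i := projT n (coord b i w)
  map_zero' := by
    funext i
    simp
  map_add' x y := by
    funext i
    simp

omit [DistribMulAction GQ J] in
theorem levelW_apply (n : ℕ) (w : A ⊗[ℤ_[p]] TateModule p J) (i : Fin r) :
    levelW b n w i = projT n (coord b i w) := rfl

omit [DistribMulAction GQ J] in
/-- **the kernel of the level-`n` map is `pⁿ (A ⊗ T)`.** -/
theorem levelW_eq_zero_iff (n : ℕ) (w : A ⊗[ℤ_[p]] TateModule p J) :
    levelW b n w = 0 ↔ ∃ w' : A ⊗[ℤ_[p]] TateModule p J, w = ((p : A) ^ n) • w' := by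
  constructor
  · intro h
    have h1 : ∀ i, ∃ t : TateModule p J, coord b i w = ((p : ℤ_[p]) ^ n) • t := by
      intro i
      rw [← proj_eq_zero_iff']
      have := congrArg (fun v => ((v i : Jtors p J n) : J)) h
      simpa [levelW_apply] using this
    obtain ⟨w', hw'⟩ := exists_eq_smul_of_coord b _ w h1
    exact ⟨w', by rw [natCast_pow_smul, hw']⟩
  · rintro ⟨w', rfl⟩
    funext i
    apply Subtype.ext
    rw [levelW_apply, coe_projT, natCast_pow_smul, map_smul]
    exact (proj_eq_zero_iff' n _).2 ⟨_, rfl⟩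

/-- the level maps are Galois equivariant. -/
theorem levelW_rho (n : ℕ) (σ : GQ) (w : A ⊗[ℤ_[p]] TateModule p J) :
    levelW b n (rhoW σ w) = fun i => torsAct p J n σ (levelW b n w i) := by
  funext i
  apply Subtype.ext
  rw [levelW_apply, coe_projT, coord_baseChange, proj_rho]
  rfl

omit [DistribMulAction GQ J] in
include b in
/-- `A ⊗ T` has no `p`-power torsion. -/
theorem eq_zero_of_natCast_pow_smul (n : ℕ) (w : A ⊗[ℤ_[p]] TateModule p J)
    (h : ((p : A) ^ n) • w = 0) : w = 0 := by
  rw [natCast_pow_smul] at h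
  exact eq_zero_of_smul_eq_zero_tensor b _ (fun t ht => eq_zero_of_pow_smul n ht) w h

variable (Lam : Submodule A (A ⊗[ℤ_[p]] TateModule p J))

omit [DistribMulAction GQ J] in
/-- saturation with respect to `p` propagates to powers of `p`. -/
theorem mem_of_pow_smul_mem (hsat : ∀ w, (p : A) • w ∈ Lam → w ∈ Lam) (n : ℕ)
    (w : A ⊗[ℤ_[p]] TateModule p J) (h : ((p : A) ^ n) • w ∈ Lam) : w ∈ Lam := by
  induction n with
  | zero => rwa [pow_zero, one_smul] at h
  | succ n ih =>
    apply ih
    apply hsat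
    rwa [← mul_smul, ← pow_succ']

omit [DistribMulAction GQ J] in
/-- the level-`n` map on the lattice. -/
def levelHom (n : ℕ) : Lam →+ (Fin r → Jtors p J n) :=
  (levelW b n).comp Lam.subtype.toAddMonoidHom

omit [DistribMulAction GQ J] in
theorem levelHom_apply (n : ℕ) (x : Lam) : levelHom b Lam n x = levelW b n (x : _) := rfl

omit [DistribMulAction GQ J] in
/-- **the kernel of the level-`n` map on a saturated lattice is `pⁿ Lam`.** -/
theorem levelHom_eq_zero_iff (hsat : ∀ w, (p : A) • w ∈ Lam → w ∈ Lam) (n : ℕ) (x : Lam) :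
    levelHom b Lam n x = 0 ↔ ∃ u : Lam, x = ((p : A) ^ n) • u := by
  rw [levelHom_apply, levelW_eq_zero_iff]
  constructor
  · rintro ⟨w', hw'⟩
    have hmem : w' ∈ Lam := mem_of_pow_smul_mem Lam hsat n w' (hw' ▸ x.2)
    exact ⟨⟨w', hmem⟩, Subtype.ext hw'⟩
  · rintro ⟨u, rfl⟩
    exact ⟨u, rfl⟩

omit [DistribMulAction GQ J] in
include b in
/-- a lattice has no `p`-power torsion. -/
theorem eq_zero_of_natCast_pow_smul_lam (n : ℕ) (x : Lam) (h : ((p : A) ^ n) • x = 0) : x = 0 := by
  apply Subtype.ext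
  apply eq_zero_of_natCast_pow_smul b n
  have := congrArg Subtype.val h
  simpa using this

variable {Lam}
variable (hstab : ∀ σ : GQ, ∀ x ∈ Lam, rhoW (p := p) (J := J) (A := A) σ x ∈ Lam)

/-- the Galois action on a stable lattice. -/
def rhoLam (σ : GQ) : Lam →ₗ[A] Lam := (rhoW σ).restrict (hstab σ)

@[simp] theorem coe_rhoLam (σ : GQ) (x : Lam) :
    ((rhoLam hstab σ x : Lam) : A ⊗[ℤ_[p]] TateModule p J) = rhoW σ (x : _) := rfl

omit b in
theorem rhoW_one : rhoW (p := p) (J := J) (A := A) 1 = 1 := by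
  show (rho p J (1 : GQ)).baseChange A = 1
  rw [map_one, LinearMap.baseChange_one]

omit b in
theorem rhoW_mul (σ τ : GQ) :
    rhoW (p := p) (J := J) (A := A) (σ * τ) = rhoW σ * rhoW τ := by
  show (rho p J (σ * τ)).baseChange A = _
  rw [map_mul, LinearMap.baseChange_mul]

omit b in
theorem rhoLam_one (x : Lam) : rhoLam hstab 1 x = x :=
  Subtype.ext (by rw [coe_rhoLam, rhoW_one]; rfl)

omit b in
theorem rhoLam_mul (σ τ : GQ) (x : Lam) :
    rhoLam hstab (σ * τ) x = rhoLam hstab σ (rhoLam hstab τ x) :=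
  Subtype.ext (by rw [coe_rhoLam, rhoW_mul]; rfl)

theorem levelHom_rhoLam (n : ℕ) (σ : GQ) (x : Lam) :
    levelHom b Lam n (rhoLam hstab σ x) = fun i => torsAct p J n σ (levelHom b Lam n x i) := by
  rw [levelHom_apply, coe_rhoLam, levelW_rho]
  rfl

include hstab in
theorem range_levelHom_stable (n : ℕ) (σ : GQ) (v : Fin r → Jtors p J n)
    (hv : v ∈ (levelHom b Lam n).range) :
    (fun i => torsAct p J n σ (v i)) ∈ (levelHom b Lam n).range := by
  obtain ⟨x, rfl⟩ := hv
  exact ⟨rhoLam hstab σ x, levelHom_rhoLam b hstab n σ x⟩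

/-- the Galois action on the image of the level map (`≅ Lam / pⁿ Lam`). -/
def rangeAct (n : ℕ) (σ : GQ) (v : (levelHom b Lam n).range) : (levelHom b Lam n).range :=
  ⟨fun i => torsAct p J n σ (v.1 i), range_levelHom_stable b hstab n σ v.1 v.2⟩

/-- the level map, as a surjection onto its image. -/
def levelR (n : ℕ) : Lam →+ (levelHom b Lam n).range := (levelHom b Lam n).rangeRestrict

theorem levelR_surjective (n : ℕ) : Function.Surjective (levelR b (Lam := Lam) n) :=
  (levelHom b Lam n).rangeRestrict_surjective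

theorem coe_levelR (n : ℕ) (x : Lam) :
    ((levelR b n x : (levelHom b Lam n).range) : Fin r → Jtors p J n) = levelHom b Lam n x := rfl

theorem levelR_rhoLam (n : ℕ) (σ : GQ) (x : Lam) :
    levelR b n (rhoLam hstab σ x) = rangeAct b hstab n σ (levelR b n x) :=
  Subtype.ext (levelHom_rhoLam b hstab n σ x)

theorem levelR_eq_zero_iff (hsat : ∀ w, (p : A) • w ∈ Lam → w ∈ Lam) (n : ℕ) (x : Lam) :
    levelR b n x = 0 ↔ ∃ u : Lam, x = ((p : A) ^ n) • u := by
  rw [← levelHom_eq_zero_iff b Lam hsat n x, ← coe_levelR]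
  exact ⟨fun h => by rw [h]; rfl, fun h => Subtype.ext h⟩

/-- the image of the level-`n` map is killed by `pⁿ`. -/
theorem pow_smul_range (n : ℕ) (v : (levelHom b Lam n).range) : p ^ n • v = 0 := by
  apply Subtype.ext
  funext i
  apply Subtype.ext
  have h := (v.1 i).2
  rw [mem_torsionBy_pow_iff] at h
  simpa using h

/-- **the image of the level-`n` map (`≅ Lam / pⁿ Lam`) is a local flat model**, for the action of
`Gal(ℚ̄_p/ℚ_p)` through `localGaloisToGlobal`. -/
theorem localFlatModel_range (hS19 : ∀ k, FlatModel p (Jtors p J k) (torsAct p J k)) (n : ℕ) :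
    LocalFlatModel p (levelHom b Lam n).range
      (fun τ => rangeAct b hstab n (localGaloisToGlobal p τ)) := by
  have h1 := Fermat.Agent.TW.FF.LocalOfGlobal68.localFlatModel_of_flatModel p (hS19 n)
  have h2 := LocalFlatModel.pi h1 r
  exact LocalFlatModel.sub h2 (levelHom b Lam n).range
    (fun τ v hv => range_levelHom_stable b hstab n (localGaloisToGlobal p τ) v hv) _
    (fun τ v => rfl)

/-! ### O1 in quotient form -/

omit [DistribMulAction GQ J] in
/-- the subgroup `pⁿ Lam` of `Lam`. -/
def powSubgroup (Lam : Submodule A (A ⊗[ℤ_[p]] TateModule p J)) (n : ℕ) : AddSubgroup Lam :=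
  (DistribSMul.toAddMonoidHom Lam ((p : A) ^ n)).range

omit b [DistribMulAction GQ J] in
theorem mem_powSubgroup_iff (n : ℕ) (x : Lam) :
    x ∈ powSubgroup Lam n ↔ ∃ u : Lam, x = ((p : A) ^ n) • u := by
  rw [powSubgroup, AddMonoidHom.mem_range]
  exact ⟨fun ⟨u, hu⟩ => ⟨u, hu.symm⟩, fun ⟨u, hu⟩ => ⟨u, hu.symm⟩⟩

omit b in
theorem powSubgroup_le_comap (n : ℕ) (σ : GQ) :
    powSubgroup Lam n ≤ (powSubgroup Lam n).comap (rhoLam hstab σ).toAddMonoidHom := by
  intro x hx
  rw [mem_powSubgroup_iff] at hx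
  obtain ⟨u, rfl⟩ := hx
  rw [AddSubgroup.mem_comap, mem_powSubgroup_iff]
  exact ⟨rhoLam hstab σ u, (rhoLam hstab σ).map_smul _ u⟩

/-- the Galois action on `Lam ⧸ pⁿ Lam`. -/
def quotAct (n : ℕ) (σ : GQ) : (Lam ⧸ powSubgroup Lam n) →+ (Lam ⧸ powSubgroup Lam n) :=
  QuotientAddGroup.map _ _ (rhoLam hstab σ).toAddMonoidHom (powSubgroup_le_comap hstab n σ)

omit b in
@[simp] theorem quotAct_mk (n : ℕ) (σ : GQ) (x : Lam) :
    quotAct hstab n σ (QuotientAddGroup.mk x) = QuotientAddGroup.mk (rhoLam hstab σ x) := rfl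

include b in
/-- **O1.**  For a `p`-saturated Galois stable lattice `Lam ≤ A ⊗ T_p J` (with `A` finite free over
`ℤ_p` and `J` satisfying the conclusion of S19), every quotient `Lam ⧸ pⁿ Lam` is a local flat model
for `Gal(ℚ̄_p/ℚ_p)` acting through `localGaloisToGlobal`. -/
theorem localFlatModel_quotient (hS19 : ∀ k, FlatModel p (Jtors p J k) (torsAct p J k))
    (hsat : ∀ w, (p : A) • w ∈ Lam → w ∈ Lam) (n : ℕ) :
    LocalFlatModel p (Lam ⧸ powSubgroup Lam n)
      (fun τ => quotAct hstab n (localGaloisToGlobal p τ)) := by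
  have hker : (levelR b (Lam := Lam) n).ker = powSubgroup Lam n := by
    ext x
    rw [AddMonoidHom.mem_ker, levelR_eq_zero_iff b hsat n x, mem_powSubgroup_iff]
  let φ₁ : (Lam ⧸ powSubgroup Lam n) ≃+ (levelHom b Lam n).range :=
    (QuotientAddGroup.quotientAddEquivOfEq hker.symm).trans
      (QuotientAddGroup.quotientKerEquivOfSurjective (levelR b n) (levelR_surjective b n))
  have hφ : ∀ x : Lam, φ₁.symm (levelR b n x) = QuotientAddGroup.mk x := by
    intro x
    have h1 : φ₁ (QuotientAddGroup.mk x) = levelR b n x := rfl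
    rw [← h1, AddEquiv.symm_apply_apply]
  refine LocalFlatModel.of_addEquiv φ₁.symm (fun τ v => ?_) (localFlatModel_range b hstab hS19 n)
  obtain ⟨x, rfl⟩ := levelR_surjective b n v
  rw [← levelR_rhoLam, hφ, hφ, quotAct_mk]

end Level

end Fermat.Agent.ORD.Old.FlatEigen69
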