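/-
ORD (S33), chapter OLD, brick O2 (helper69): **a nonzero inertia-invariant functional on a saturated
Galois stable lattice `Lam ≤ A ⊗ T_p J`**, from flatness of its finite levels (O1, `FlatEigen69`),
exactness of inertia coinvariants on `p`-power flat modules (`CoinvGen68.coinvExact_gen`) and a
nonzero inertia-invariant functional modulo `p` (the output of brick A5).

* `exists_functional_of_not_torsion` : a finitely generated module over a domain has a functional
  which is nonzero at a given non-torsion element (Mathlib only);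
* `exists_natCast_pow_smul_eq_zero`  : `A`-torsion is `p`-power torsion, `A` finite over `ℤ_p`;
* `augSub`                           : the `A`-submodule of `Lam` generated by `τ y - y`, `τ` inertia;
* `exists_eq_add_smul_of_pow_smul_mem` : **division**, `pᵐ x ∈ I_aug Lam ⇒ x ∈ I_aug Lam + p Lam`;
* `exists_functional_local`, `exists_functional_padicPlace`, `exists_invariant_functional` : **O2**.
-/
import Mathlib
import Fermat.Agent.ORD.Old.FlatEigen69
import Fermat.Agent.ORD.FlatOrd.CoinvGen68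
import Fermat.Agent.TW.Bridge.LocalInertia97
import Fermat.Agent.TW.LocalQ.PlaceConj96
import Fermat.Agent.TW.OrdLocal.PadicPlace97

set_option autoImplicit false
set_option linter.unusedSectionVars false

noncomputable section

open TensorProduct
open scoped nonZeroDivisors Pointwise

namespace Fermat.Agent.ORD.Old.CoinvGrowth69

open Fermat.Agent.ES.J.TateModule13 Fermat.Agent.TW.FF.FlatModel68
open Fermat.Agent.TW.FF.Spec72 (inertiaSet)
open Fermat.Agent.ORD.Old.FlatEigen69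
open Fermat.Agent.ORD.FlatOrd.CoinvGen68 (Iaug sub_mem_Iaug coinvExact_gen)

/-! ### abstract algebra -/

section Abstract

/-- A finitely generated module over a domain has a functional not vanishing at a given element
with trivial annihilator. -/
theorem exists_functional_of_not_torsion {A C : Type*} [CommRing A] [IsDomain A]
    [AddCommGroup C] [Module A C] [Module.Finite A C]
    (c₀ : C) (h : ∀ a : A, a ≠ 0 → a • c₀ ≠ 0) : ∃ φ : C →ₗ[A] A, φ c₀ ≠ 0 := by
  classical
  let K := FractionRing A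
  let CK := LocalizedModule A⁰ C
  let f : C →ₗ[A] CK := LocalizedModule.mkLinearMap A⁰ C
  have hv : f c₀ ≠ 0 := by
    intro h0
    rw [IsLocalizedModule.eq_zero_iff A⁰ f] at h0
    obtain ⟨s, hs⟩ := h0
    exact h (s : A) (nonZeroDivisors.coe_ne_zero s) hs
  have hψ : ∃ ψ : Module.Dual K CK, ψ (f c₀) ≠ 0 := by
    by_contra hcon
    push Not at hcon
    exact hv ((Module.forall_dual_apply_eq_zero_iff K (f c₀)).1 hcon)
  obtain ⟨ψ, hψ⟩ := hψ
  let g : C →ₗ[A] K := (ψ.restrictScalars A).comp f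
  have hfg : (LinearMap.range g).FG := by
    rw [LinearMap.range_eq_map]
    exact (Module.Finite.fg_top).map g
  obtain ⟨d, hd, hdI⟩ := FractionalIdeal.isFractional_of_fg (S := A⁰) (P := K) hfg
  have hd0 : d ≠ 0 := nonZeroDivisors.ne_zero hd
  have hmem : ∀ c : C, (d • g) c ∈ LinearMap.range (Algebra.linearMap A K) := by
    intro c
    obtain ⟨a, ha⟩ := hdI (g c) ⟨c, rfl⟩
    exact ⟨a, ha⟩
  have hinj : Function.Injective (Algebra.linearMap A K) := IsFractionRing.injective A K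
  let e := LinearEquiv.ofInjective (Algebra.linearMap A K) hinj
  let φ : C →ₗ[A] A := e.symm.toLinearMap.comp ((d • g).codRestrict _ hmem)
  refine ⟨φ, ?_⟩
  intro h0
  have h1 : e (φ c₀) = 0 := by rw [h0, map_zero]
  have h2 : (e (φ c₀) : K) = d • g c₀ := by
    simp only [φ, LinearMap.comp_apply, LinearEquiv.coe_coe, LinearEquiv.apply_symm_apply]
    rfl
  rw [h1] at h2
  have h3 : d • g c₀ = 0 := h2.symm
  rw [Algebra.smul_def, mul_eq_zero] at h3
  rcases h3 with h3 | h3
  · exact hd0 ((IsFractionRing.injective A K) (by rw [h3, map_zero]))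
  · exact hψ h3

/-- Over a domain `A` which is finite over `ℤ_p`, an element killed by a nonzero element of `A` is
killed by a power of `p`. -/
theorem exists_natCast_pow_smul_eq_zero {p : ℕ} [Fact p.Prime] {A C : Type*} [CommRing A]
    [IsDomain A] [Algebra ℤ_[p] A] [Module.Finite ℤ_[p] A] [AddCommGroup C] [Module A C]
    {a : A} (ha : a ≠ 0) {c : C} (h : a • c = 0) : ∃ m : ℕ, ((p : A) ^ m) • c = 0 := by
  have halg : IsAlgebraic ℤ_[p] a := (Algebra.IsIntegral.isIntegral (R := ℤ_[p]) a).isAlgebraic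
  obtain ⟨r, hr, s, hs⟩ := halg.exists_nonzero_dvd (mem_nonZeroDivisors_of_ne_zero ha)
  have h1 : (algebraMap ℤ_[p] A r) • c = 0 := by
    rw [hs, mul_comm, mul_smul, h, smul_zero]
  refine ⟨r.valuation, ?_⟩
  have hu := PadicInt.unitCoeff_spec hr
  have h2 : algebraMap ℤ_[p] A r =
      algebraMap ℤ_[p] A ((PadicInt.unitCoeff hr : ℤ_[p]ˣ) : ℤ_[p]) * (p : A) ^ r.valuation := by
    conv_lhs => rw [hu]
    rw [map_mul, map_pow, map_natCast]
  rw [h2, mul_smul] at h1
  have h3 := congrArg (fun x => algebraMap ℤ_[p] A (((PadicInt.unitCoeff hr)⁻¹ : ℤ_[p]ˣ) : ℤ_[p]) • x) h1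
  simp only [smul_zero] at h3
  rwa [← mul_smul, ← map_mul, Units.inv_mul, map_one, one_smul] at h3

end Abstract

/-! ### the augmentation submodule and the division lemma (abstract lattice) -/

section AbstractMain

variable {p : ℕ} [Fact p.Prime]
variable {A : Type*} [CommRing A] [Algebra ℤ_[p] A]
variable {L : Type*} [AddCommGroup L] [Module A L]
variable (ρ : GQp p → L →ₗ[A] L)

/-- the generators `τ y - y` (`τ` in the inertia subgroup of `Gal(ℚ̄_p/ℚ_p)`) of the augmentation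
submodule. -/
def augSet : Set L := {x | ∃ τ ∈ inertiaSet p, ∃ y : L, x = ρ τ y - y}

/-- the augmentation submodule `I_aug L`: the additive subgroup generated by the `τ y - y`, which is
an `A`-submodule. -/
def augSub : Submodule A L where
  carrier := AddSubgroup.closure (augSet ρ)
  add_mem' := fun ha hb => AddSubgroup.add_mem _ ha hb
  zero_mem' := AddSubgroup.zero_mem _
  smul_mem' := by
    intro a x hx
    induction hx using AddSubgroup.closure_induction with
    | mem x hx =>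
      obtain ⟨τ, hτ, y, rfl⟩ := hx
      apply AddSubgroup.subset_closure
      exact ⟨τ, hτ, a • y, by rw [smul_sub, map_smul]⟩
    | zero =>
      rw [smul_zero]
      exact AddSubgroup.zero_mem _
    | add x y _ _ hx hy =>
      rw [smul_add]
      exact AddSubgroup.add_mem _ hx hy
    | neg x _ hx =>
      rw [smul_neg]
      exact AddSubgroup.neg_mem _ hx

theorem mem_augSub_iff (x : L) : x ∈ augSub ρ ↔ x ∈ AddSubgroup.closure (augSet ρ) := Iff.rfl

theorem sub_mem_augSub {τ : GQp p} (hτ : τ ∈ inertiaSet p) (y : L) : ρ τ y - y ∈ augSub ρ :=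
  AddSubgroup.subset_closure ⟨τ, hτ, y, rfl⟩

/-- an additive map which is invariant under inertia kills the augmentation submodule. -/
theorem map_eq_zero_of_mem_augSub {X : Type*} [AddCommGroup X] (μ : L →+ X)
    (hμI : ∀ τ ∈ inertiaSet p, ∀ y : L, μ (ρ τ y) = μ y) {z : L} (hz : z ∈ augSub ρ) : μ z = 0 := by
  rw [mem_augSub_iff] at hz
  induction hz using AddSubgroup.closure_induction with
  | mem x hx =>
    obtain ⟨τ, hτ, y, rfl⟩ := hx
    rw [map_sub, hμI τ hτ, sub_self]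
  | zero => exact map_zero _
  | add x y _ _ hx hy => rw [map_add, hx, hy, add_zero]
  | neg x _ hx => rw [map_neg, hx, neg_zero]

/-- the finite level `L / pᵐ L` of the lattice is a local flat model (in the form of an equivariant
additive map onto a local flat model, with kernel `pᵐ L`). -/
def HasFlatLevel (m : ℕ) : Prop :=
  ∃ (V : Type) (_ : AddCommGroup V) (act : GQp p → V → V) (π : L →+ V),
    LocalFlatModel p V act ∧ (∃ k : ℕ, ∀ v : V, p ^ k • v = 0) ∧
    (∀ τ y, π (ρ τ y) = act τ (π y)) ∧ (∀ x, π x = 0 → ∃ u : L, x = ((p : A) ^ m) • u)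

/-- **Division lemma.**  If `pᵐ x₀ ∈ I_aug L` then `x₀ ∈ I_aug L + p L`: exactness of inertia
coinvariants on the flat module `L / pᵐ⁺¹ L` applied to the stable subgroup
`pᵐ L / pᵐ⁺¹ L ≅ L / p L`. -/
theorem exists_eq_add_smul_of_pow_smul_mem (hp2 : p ≠ 2) (m : ℕ)
    (hlev : HasFlatLevel ρ (m + 1)) (htf : ∀ x : L, ((p : A) ^ m) • x = 0 → x = 0) (x₀ : L)
    (h : ((p : A) ^ m) • x₀ ∈ augSub ρ) :
    ∃ z ∈ augSub ρ, ∃ u : L, x₀ = z + (p : A) • u := by
  obtain ⟨V, _, act, π, hV, hpn, hπ, hker⟩ := hlev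
  -- the stable subgroup `W = pᵐ V`
  let W : AddSubgroup V := (π.comp (DistribSMul.toAddMonoidHom L ((p : A) ^ m))).range
  have hW : ∀ τ, ∀ v ∈ W, act τ v ∈ W := by
    rintro τ _ ⟨y, rfl⟩
    refine ⟨ρ τ y, ?_⟩
    show π (((p : A) ^ m) • ρ τ y) = act τ (π (((p : A) ^ m) • y))
    rw [← hπ, (ρ τ).map_smul]
  have hxW : π (((p : A) ^ m) • x₀) ∈ W := ⟨x₀, rfl⟩
  have hx : π (((p : A) ^ m) • x₀) ∈ Iaug p act ⊤ := by
    have key : ∀ s ∈ augSub ρ, π s ∈ Iaug p act ⊤ := by
      intro s hs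
      rw [mem_augSub_iff] at hs
      induction hs using AddSubgroup.closure_induction with
      | mem s hs =>
        obtain ⟨τ, hτ, y, rfl⟩ := hs
        rw [map_sub, hπ]
        exact sub_mem_Iaug hτ (AddSubgroup.mem_top _)
      | zero =>
        rw [map_zero]
        exact AddSubgroup.zero_mem _
      | add s t _ _ hs ht =>
        rw [map_add]
        exact AddSubgroup.add_mem _ hs ht
      | neg s _ hs =>
        rw [map_neg]
        exact AddSubgroup.neg_mem _ hs
    exact key _ h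
  have hex := coinvExact_gen hp2 hV hpn W hW hxW hx
  -- every element of `I_aug W` is `π (pᵐ z)` with `z ∈ I_aug L`
  have hkey : ∀ v ∈ Iaug p act W, ∃ z ∈ augSub ρ, v = π (((p : A) ^ m) • z) := by
    intro v hv
    unfold Iaug at hv
    induction hv using AddSubgroup.closure_induction with
    | mem v hv =>
      obtain ⟨τ, hτ, w, ⟨y, rfl⟩, rfl⟩ := hv
      refine ⟨ρ τ y - y, sub_mem_augSub ρ hτ y, ?_⟩
      show act τ (π (((p : A) ^ m) • y)) - π (((p : A) ^ m) • y) = _
      rw [← hπ, ← map_sub, (ρ τ).map_smul, ← smul_sub]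
    | zero => exact ⟨0, Submodule.zero_mem _, by rw [smul_zero, map_zero]⟩
    | add v w _ _ hv hw =>
      obtain ⟨z, hz, rfl⟩ := hv
      obtain ⟨z', hz', rfl⟩ := hw
      exact ⟨z + z', Submodule.add_mem _ hz hz', by rw [smul_add, map_add]⟩
    | neg v _ hv =>
      obtain ⟨z, hz, rfl⟩ := hv
      exact ⟨-z, Submodule.neg_mem _ hz, by rw [smul_neg, map_neg]⟩
  obtain ⟨z, hz, hzeq⟩ := hkey _ hex
  have h0 : π (((p : A) ^ m) • (x₀ - z)) = 0 := by
    rw [smul_sub, map_sub, hzeq, sub_self]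
  obtain ⟨u, hu⟩ := hker _ h0
  refine ⟨z, hz, u, ?_⟩
  have h1 : ((p : A) ^ m) • (x₀ - z - (p : A) • u) = 0 := by
    rw [smul_sub ((p : A) ^ m) (x₀ - z), hu, ← mul_smul, ← pow_succ]
    exact sub_self _
  have h2 := htf _ h1
  rw [sub_eq_zero] at h2
  rw [← h2]
  abel

/-- **O2, abstract form.**  `A` a domain, finite over `ℤ_p`; `L` a finitely generated `A`-module
without `p`-power torsion, with an `A`-linear action `ρ` of `Gal(ℚ̄_p/ℚ_p)`, all of whose finite levels
`L / pᵐ L` are local flat models (`p` odd); `μ` an additive map on `L`, killing `p L`, invariant under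
inertia, with `μ x₀ ≠ 0`.  Then there is an `A`-linear inertia-invariant functional `lam : L → A` with
`lam x₀ ≠ 0`. -/
theorem exists_functional_abstract [IsDomain A] [Module.Finite ℤ_[p] A] [Module.Finite A L]
    (hp2 : p ≠ 2) (hlev : ∀ m, HasFlatLevel ρ m)
    (htf : ∀ (m : ℕ) (x : L), ((p : A) ^ m) • x = 0 → x = 0)
    {X : Type*} [AddCommGroup X] (μ : L →+ X) (hμp : ∀ u : L, μ ((p : A) • u) = 0)
    (hμI : ∀ τ ∈ inertiaSet p, ∀ y : L, μ (ρ τ y) = μ y) (x₀ : L) (hx₀ : μ x₀ ≠ 0) :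
    ∃ lam : L →ₗ[A] A, lam x₀ ≠ 0 ∧ ∀ τ ∈ inertiaSet p, ∀ y : L, lam (ρ τ y) = lam y := by
  have hnt : ∀ a : A, a ≠ 0 → a • ((augSub ρ).mkQ x₀) ≠ 0 := by
    intro a ha h0
    obtain ⟨m, hm⟩ := exists_natCast_pow_smul_eq_zero (p := p) ha h0
    rw [← map_smul, Submodule.mkQ_apply, Submodule.Quotient.mk_eq_zero] at hm
    obtain ⟨z, hz, u, hu⟩ :=
      exists_eq_add_smul_of_pow_smul_mem ρ hp2 m (hlev (m + 1)) (htf m) x₀ hm
    apply hx₀
    rw [hu, map_add, map_eq_zero_of_mem_augSub ρ μ hμI hz, hμp, add_zero]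
  obtain ⟨φ, hφ⟩ := exists_functional_of_not_torsion ((augSub ρ).mkQ x₀) hnt
  refine ⟨φ.comp (augSub ρ).mkQ, hφ, fun τ hτ y => ?_⟩
  rw [← sub_eq_zero, ← map_sub, LinearMap.comp_apply, Submodule.mkQ_apply,
    (Submodule.Quotient.mk_eq_zero _).2 (sub_mem_augSub ρ hτ y), map_zero]

end AbstractMain

/-! ### the lattice `Lam ≤ A ⊗ T_p J` -/

section Concrete

local notation "Qb" => AlgebraicClosure ℚ

variable {p : ℕ} [Fact p.Prime] {J : Type} [AddCommGroup J] [DistribMulAction GQ J]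
variable {A : Type} [CommRing A] [Algebra ℤ_[p] A]
variable {Lam : Submodule A (A ⊗[ℤ_[p]] TateModule p J)}
variable (hstab : ∀ σ : GQ, ∀ x ∈ Lam, rhoW (p := p) (J := J) (A := A) σ x ∈ Lam)

/-- the action of `Gal(ℚ̄_p/ℚ_p)` on the lattice. -/
def rhoLoc (τ : GQp p) : Lam →ₗ[A] Lam := rhoLam hstab (localGaloisToGlobal p τ)

/-- **O1 in the form used by O2**: all finite levels of a saturated stable lattice are local flat
models. -/
theorem hasFlatLevel {r : ℕ} (b : Module.Basis (Fin r) ℤ_[p] A)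
    (hS19 : ∀ k, FlatModel p (Jtors p J k) (torsAct p J k))
    (hsat : ∀ w, (p : A) • w ∈ Lam → w ∈ Lam) (m : ℕ) :
    HasFlatLevel (L := ↥Lam) (rhoLoc hstab) m :=
  ⟨(levelHom b Lam m).range, inferInstance,
    fun τ => rangeAct b hstab m (localGaloisToGlobal p τ), levelR b m,
    localFlatModel_range b hstab hS19 m, ⟨m, pow_smul_range b m⟩,
    fun τ y => levelR_rhoLam b hstab m (localGaloisToGlobal p τ) y, fun x hx => (levelR_eq_zero_iff b hsat m x).1 hx⟩

omit [DistribMulAction GQ J] in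
/-- a lattice in `A ⊗ T` is finitely generated over `A`. -/
theorem finite_lam [Module.Finite ℤ_[p] A] [Module.Finite ℤ_[p] (TateModule p J)]
    (Lam : Submodule A (A ⊗[ℤ_[p]] TateModule p J)) : Module.Finite A Lam := by
  have h1 : IsNoetherian ℤ_[p] (A ⊗[ℤ_[p]] TateModule p J) :=
    isNoetherian_of_isNoetherianRing_of_finite ℤ_[p] _
  have h2 : IsNoetherian ℤ_[p] Lam :=
    isNoetherian_of_injective (Lam.subtype.restrictScalars ℤ_[p]) Subtype.val_injective
  have h3 : Module.Finite ℤ_[p] Lam := inferInstance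
  exact Module.Finite.of_restrictScalars_finite ℤ_[p] A Lam

/-- **O2, local form**: invariance under the inertia subgroup of `Gal(ℚ̄_p/ℚ_p)`. -/
theorem exists_functional_local [IsDomain A] [Module.Finite ℤ_[p] A] [Module.Free ℤ_[p] A]
    [Module.Finite ℤ_[p] (TateModule p J)] (hp2 : p ≠ 2)
    (hS19 : ∀ k, FlatModel p (Jtors p J k) (torsAct p J k))
    (hsat : ∀ w, (p : A) • w ∈ Lam → w ∈ Lam)
    {X : Type*} [AddCommGroup X] (μ : Lam →+ X) (hμp : ∀ u : Lam, μ ((p : A) • u) = 0)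
    (hμI : ∀ τ ∈ inertiaSet p, ∀ y : Lam, μ (rhoLam hstab (localGaloisToGlobal p τ) y) = μ y)
    (x₀ : Lam) (hx₀ : μ x₀ ≠ 0) :
    ∃ lam : Lam →ₗ[A] A, lam x₀ ≠ 0 ∧
      ∀ τ ∈ inertiaSet p, ∀ y : Lam, lam (rhoLam hstab (localGaloisToGlobal p τ) y) = lam y := by
  have := finite_lam Lam
  let b := Module.finBasis ℤ_[p] A
  exact exists_functional_abstract (rhoLoc hstab) hp2 (fun m => hasFlatLevel hstab b hS19 hsat m)
    (fun m x hx => eq_zero_of_natCast_pow_smul_lam b Lam m x hx) μ hμp hμI x₀ hx₀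

/-- **O2 at the standard place `padicPlace p`.** -/
theorem exists_functional_padicPlace [IsDomain A] [Module.Finite ℤ_[p] A] [Module.Free ℤ_[p] A]
    [Module.Finite ℤ_[p] (TateModule p J)] (hp2 : p ≠ 2)
    (hS19 : ∀ k, FlatModel p (Jtors p J k) (torsAct p J k))
    (hsat : ∀ w, (p : A) • w ∈ Lam → w ∈ Lam)
    {X : Type*} [AddCommGroup X] (μ : Lam →+ X) (hμp : ∀ u : Lam, μ ((p : A) • u) = 0)
    (hμI : ∀ σ ∈ (padicPlace p).inertiaSubgroupIn ℚ, ∀ y : Lam, μ (rhoLam hstab σ y) = μ y)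
    (x₀ : Lam) (hx₀ : μ x₀ ≠ 0) :
    ∃ lam : Lam →ₗ[A] A, lam x₀ ≠ 0 ∧
      ∀ σ ∈ (padicPlace p).inertiaSubgroupIn ℚ, ∀ y : Lam, lam (rhoLam hstab σ y) = lam y := by
  obtain ⟨lam, h0, hI⟩ := exists_functional_local hstab hp2 hS19 hsat μ hμp
    (fun τ hτ y => hμI _
      ((Fermat.Agent.TW.Bridge.LocalInertia97.localGaloisToGlobal_mem_inertia_iff p τ).mpr hτ) y)
    x₀ hx₀
  refine ⟨lam, h0, fun σ hσ y => ?_⟩
  obtain ⟨τ, rfl, hτ⟩ :=
    Fermat.Agent.TW.Bridge.LocalInertia97.exists_local_inertia_of_mem_inertia p hσ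
  exact hI τ hτ y

/-- **O2.**  `p` odd; `J` an abelian group with `G_ℚ`-action satisfying the conclusion of S19 (all
`J[pᵏ]` are finite flat over `ℤ_(p)`); `A` a domain, finite free over `ℤ_p`; `Lam ≤ A ⊗ T_p J` a
`p`-saturated Galois stable `A`-submodule; `P` a place of `ℚ̄` over `p`; `μ` a nonzero additive map on
`Lam` killing `p Lam` and invariant under the inertia group `I_P`.  Then there is a nonzero `A`-linear
functional `lam : Lam → A` invariant under `I_P`. -/
theorem exists_invariant_functional [IsDomain A] [Module.Finite ℤ_[p] A] [Module.Free ℤ_[p] A]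
    [Module.Finite ℤ_[p] (TateModule p J)] (hp2 : p ≠ 2)
    (hS19 : ∀ k, FlatModel p (Jtors p J k) (torsAct p J k))
    (hsat : ∀ w, (p : A) • w ∈ Lam → w ∈ Lam)
    (P : ValuationSubring Qb) (hP : P.LiesOverPrime p)
    {X : Type*} [AddCommGroup X] (μ : Lam →+ X) (hμp : ∀ u : Lam, μ ((p : A) • u) = 0)
    (hμI : ∀ σ ∈ P.inertiaSubgroupIn ℚ, ∀ y : Lam, μ (rhoLam hstab σ y) = μ y)
    (hμ0 : μ ≠ 0) :
    ∃ lam : Lam →ₗ[A] A, lam ≠ 0 ∧
      ∀ σ ∈ P.inertiaSubgroupIn ℚ, ∀ y : Lam, lam (rhoLam hstab σ y) = lam y := by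
  have hp : p.Prime := Fact.out
  have hP0 : (padicPlace p).LiesOverPrime p :=
    Fermat.Agent.TW.OrdLocal.PadicPlace97.padicPlace_liesOverPrime p
  obtain ⟨g, hg⟩ := Fermat.Agent.TW.LocalQ.PlaceConj96.exists_smul_eq_of_liesOverPrime hp hP0 hP
  obtain ⟨x, hx⟩ : ∃ x, μ x ≠ 0 := by
    by_contra hcon
    push Not at hcon
    exact hμ0 (AddMonoidHom.ext fun x => by rw [hcon x]; rfl)
  -- transport `μ` to the standard place
  let μ₀ : Lam →+ X := μ.comp (rhoLam hstab g).toAddMonoidHom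
  have hμ₀ : ∀ y, μ₀ y = μ (rhoLam hstab g y) := fun y => rfl
  have hμ₀p : ∀ u : Lam, μ₀ ((p : A) • u) = 0 := fun u => by
    rw [hμ₀, (rhoLam hstab g).map_smul, hμp]
  have hμ₀I : ∀ σ ∈ (padicPlace p).inertiaSubgroupIn ℚ, ∀ y : Lam,
      μ₀ (rhoLam hstab σ y) = μ₀ y := by
    intro σ hσ y
    have h1 : g * σ * g⁻¹ ∈ P.inertiaSubgroupIn ℚ := by
      have := Fermat.Agent.TW.LocalQ.PlaceConj96.conj_mem_inertiaSubgroupIn hp hP0 g hσ
      rwa [hg] at this
    have h2 : rhoLam hstab g (rhoLam hstab σ y) =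
        rhoLam hstab (g * σ * g⁻¹) (rhoLam hstab g y) := by
      rw [← rhoLam_mul, ← rhoLam_mul, inv_mul_cancel_right]
    rw [hμ₀, hμ₀, h2, hμI _ h1]
  have hx₀ : μ₀ (rhoLam hstab g⁻¹ x) ≠ 0 := by
    rw [hμ₀, ← rhoLam_mul, mul_inv_cancel, rhoLam_one]
    exact hx
  obtain ⟨lam₀, h0, hI⟩ :=
    exists_functional_padicPlace hstab hp2 hS19 hsat μ₀ hμ₀p hμ₀I _ hx₀
  refine ⟨lam₀.comp (rhoLam hstab g⁻¹), fun h => h0 ?_, fun σ hσ y => ?_⟩
  · have := LinearMap.congr_fun h x
    simpa using this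
  · have h1 : g⁻¹ * σ * g ∈ (padicPlace p).inertiaSubgroupIn ℚ := by
      have h := Fermat.Agent.TW.LocalQ.PlaceConj96.conj_mem_inertiaSubgroupIn hp hP g⁻¹ hσ
      rw [inv_inv, ← hg, inv_smul_smul] at h
      exact h
    have h2 : rhoLam hstab g⁻¹ (rhoLam hstab σ y) =
        rhoLam hstab (g⁻¹ * σ * g) (rhoLam hstab g⁻¹ y) := by
      rw [← rhoLam_mul, ← rhoLam_mul, mul_inv_cancel_right]
    rw [LinearMap.comp_apply, LinearMap.comp_apply, h2, hI _ h1]

/-- `A` is free over `ℤ_p` as soon as it is a domain, finite over `ℤ_p`, in which `p ≠ 0`. -/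
theorem free_of_isDomain [IsDomain A] [Module.Finite ℤ_[p] A] (hpA : (p : A) ≠ 0) :
    Module.Free ℤ_[p] A := by
  have hinj : Function.Injective (algebraMap ℤ_[p] A) := by
    rw [injective_iff_map_eq_zero]
    intro z hz
    by_contra hz0
    have hu := PadicInt.unitCoeff_spec hz0
    rw [hu, map_mul, map_pow, map_natCast] at hz
    rcases mul_eq_zero.mp hz with h | h
    · exact ((PadicInt.unitCoeff hz0).isUnit.map (algebraMap ℤ_[p] A)).ne_zero h
    · exact pow_ne_zero _ hpA h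
  have : Module.IsTorsionFree ℤ_[p] A := by
    refine Module.IsTorsionFree.of_smul_eq_zero fun c x hcx => ?_
    rw [Algebra.smul_def, mul_eq_zero] at hcx
    rcases hcx with h | h
    · exact Or.inl (hinj (by rw [h, map_zero]))
    · exact Or.inr h
  exact Module.free_of_finite_type_torsion_free'

/-- **O2, module form**: the invariant map `μ` is `A`-linear with values in an `A`-module killed by
`p` (e.g. the residue field of `A`, or `Lam / 𝔪 Lam`). -/
theorem exists_invariant_functional_of_linear [IsDomain A] [Module.Finite ℤ_[p] A]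
    [Module.Free ℤ_[p] A] [Module.Finite ℤ_[p] (TateModule p J)] (hp2 : p ≠ 2)
    (hS19 : ∀ k, FlatModel p (Jtors p J k) (torsAct p J k))
    (hsat : ∀ w, (p : A) • w ∈ Lam → w ∈ Lam)
    (P : ValuationSubring Qb) (hP : P.LiesOverPrime p)
    {X : Type*} [AddCommGroup X] [Module A X] (hX : ∀ x : X, (p : A) • x = 0)
    (μ : Lam →ₗ[A] X) (hμ0 : μ ≠ 0)
    (hμI : ∀ σ ∈ P.inertiaSubgroupIn ℚ, ∀ y : Lam, μ (rhoLam hstab σ y) = μ y) :
    ∃ lam : Lam →ₗ[A] A, lam ≠ 0 ∧
      ∀ σ ∈ P.inertiaSubgroupIn ℚ, ∀ y : Lam, lam (rhoLam hstab σ y) = lam y := by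
  refine exists_invariant_functional hstab hp2 hS19 hsat P hP μ.toAddMonoidHom
    (fun u => ?_) hμI (fun h => hμ0 ?_)
  · show μ ((p : A) • u) = 0
    rw [map_smul, hX]
  · ext x
    exact DFunLike.congr_fun h x

/-- **O2, residual form**: `A` local with `p ∈ 𝔪_A`, and `μ : Lam → k_A` a nonzero `A`-linear map to
the residue field, invariant under `I_P`.  The invariance statements are phrased without any bundled
action: `y = σ x` means `(y : A ⊗ T) = (ρ σ ⊗ 1) x`. -/
theorem exists_invariant_functional_residual [IsDomain A] [IsLocalRing A] [Module.Finite ℤ_[p] A]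
    [Module.Free ℤ_[p] A] [Module.Finite ℤ_[p] (TateModule p J)] (hp2 : p ≠ 2)
    (hpA : (p : A) ∈ IsLocalRing.maximalIdeal A)
    (hS19 : ∀ k, FlatModel p (Jtors p J k) (torsAct p J k))
    (hsat : ∀ w, (p : A) • w ∈ Lam → w ∈ Lam)
    (hstab : ∀ σ : GQ, ∀ x ∈ Lam, rhoW (p := p) (J := J) (A := A) σ x ∈ Lam)
    (P : ValuationSubring Qb) (hP : P.LiesOverPrime p)
    (μ : Lam →ₗ[A] IsLocalRing.ResidueField A) (hμ0 : μ ≠ 0)
    (hμI : ∀ σ ∈ P.inertiaSubgroupIn ℚ, ∀ x y : Lam,
      (y : A ⊗[ℤ_[p]] TateModule p J) = rhoW σ (x : A ⊗[ℤ_[p]] TateModule p J) → μ y = μ x) :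
    ∃ lam : Lam →ₗ[A] A, lam ≠ 0 ∧
      ∀ σ ∈ P.inertiaSubgroupIn ℚ, ∀ x y : Lam,
        (y : A ⊗[ℤ_[p]] TateModule p J) = rhoW σ (x : A ⊗[ℤ_[p]] TateModule p J) →
          lam y = lam x := by
  have hX : ∀ z : IsLocalRing.ResidueField A, (p : A) • z = 0 := by
    intro z
    rw [Algebra.smul_def]
    have : algebraMap A (IsLocalRing.ResidueField A) (p : A) = 0 :=
      (IsLocalRing.residue_eq_zero_iff _).2 hpA
    rw [this, zero_mul]
  obtain ⟨lam, h0, hI⟩ := exists_invariant_functional_of_linear hstab hp2 hS19 hsat P hP hX μ hμ0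
    (fun σ hσ y => hμI σ hσ y _ rfl)
  refine ⟨lam, h0, fun σ hσ x y hxy => ?_⟩
  have : y = rhoLam hstab σ x := Subtype.ext hxy
  rw [this, hI σ hσ]

end Concrete

end Fermat.Agent.ORD.Old.CoinvGrowth69
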