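/-
ORD (S33), chapter OLD (helper69): **the old point, in the shape consumed by brick Z**.

`exists_invariant_functional_bundled`: the statement of O2 (`CoinvGrowth69`) for a lattice
`Lam ≤ A ⊗ T_p J` given together with a bundled action `ρL : G_ℚ →* End_A Lam` (as exported by A1)
which is the restriction of `(ρ g).baseChange A`, from the LITERAL S19 conclusion for `J`
(`FlatEigen69.S19Conclusion p J`; for `J = JZero M` this is `Spec40.FlatTorsion p M` verbatim) and a
nonzero `A`-linear `I_P`-invariant map `μ : Lam → X` into an `A`-module killed by `p` (the output of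
A7 with `X = ResidueField A`).  The conclusion is literally the pair `(lam, hinv)` consumed by
`CHFunctional40` (A3) with `I := P.inertiaSubgroupIn ℚ`.
-/
import Mathlib
import Fermat.Agent.ORD.Old.CoinvGrowth69

set_option autoImplicit false
set_option linter.unusedSectionVars false

noncomputable section

open TensorProduct

namespace Fermat.Agent.ORD.Old.OldPoint69

open Fermat.Agent.ES.J.TateModule13 Fermat.Agent.TW.FF.FlatModel68
open Fermat.Agent.ORD.Old.FlatEigen69 Fermat.Agent.ORD.Old.CoinvGrowth69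

local notation "Qb" => AlgebraicClosure ℚ

variable {p : ℕ} [Fact p.Prime] {J : Type} [AddCommGroup J] [DistribMulAction GQ J]
variable {A : Type} [CommRing A] [Algebra ℤ_[p] A]

/-- **The old point.**  See the header. -/
theorem exists_invariant_functional_bundled [IsDomain A] [Module.Finite ℤ_[p] A]
    [Module.Free ℤ_[p] A] [Module.Finite ℤ_[p] (TateModule p J)] (hp2 : p ≠ 2)
    (hS19 : S19Conclusion p J)
    (Lam : Submodule A (A ⊗[ℤ_[p]] TateModule p J))
    (hsat : ∀ w, (p : A) • w ∈ Lam → w ∈ Lam)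
    (ρL : GQ →* Module.End A Lam)
    (hcoe : ∀ (g : GQ) (x : Lam),
      ((ρL g x : Lam) : A ⊗[ℤ_[p]] TateModule p J) = (rho p J g).baseChange A x)
    (P : ValuationSubring Qb) (hP : P.LiesOverPrime p)
    {X : Type*} [AddCommGroup X] [Module A X] (hX : ∀ x : X, (p : A) • x = 0)
    (μ : Lam →ₗ[A] X) (hμ0 : μ ≠ 0)
    (hμI : ∀ h ∈ P.inertiaSubgroupIn ℚ, ∀ x : Lam, μ (ρL h x) = μ x) :
    ∃ lam : Lam →ₗ[A] A, lam ≠ 0 ∧ ∀ h ∈ P.inertiaSubgroupIn ℚ, ∀ x : Lam, lam (ρL h x) = lam x := by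
  have hstab : ∀ σ : GQ, ∀ x ∈ Lam, rhoW (p := p) (J := J) (A := A) σ x ∈ Lam := by
    intro σ x hx
    have := (ρL σ ⟨x, hx⟩).2
    rwa [hcoe σ ⟨x, hx⟩] at this
  have hρ : ∀ (g : GQ) (x : Lam), ρL g x = rhoLam hstab g x := fun g x =>
    Subtype.ext (hcoe g x)
  obtain ⟨lam, h0, hI⟩ := exists_invariant_functional_of_linear hstab hp2 (flatModel_of_S19 hS19)
    hsat P hP hX μ hμ0 (fun σ hσ y => by rw [← hρ]; exact hμI σ hσ y)
  exact ⟨lam, h0, fun h hh x => by rw [hρ]; exact hI h hh x⟩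

/-- The same with `μ` valued in the residue field of a local `A` with `p ∈ 𝔪_A` (the literal output
of A7). -/
theorem exists_invariant_functional_bundled_residual [IsDomain A] [IsLocalRing A]
    [Module.Finite ℤ_[p] A] [Module.Free ℤ_[p] A] [Module.Finite ℤ_[p] (TateModule p J)]
    (hp2 : p ≠ 2) (hpA : (p : A) ∈ IsLocalRing.maximalIdeal A)
    (hS19 : S19Conclusion p J)
    (Lam : Submodule A (A ⊗[ℤ_[p]] TateModule p J))
    (hsat : ∀ w, (p : A) • w ∈ Lam → w ∈ Lam)
    (ρL : GQ →* Module.End A Lam)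
    (hcoe : ∀ (g : GQ) (x : Lam),
      ((ρL g x : Lam) : A ⊗[ℤ_[p]] TateModule p J) = (rho p J g).baseChange A x)
    (P : ValuationSubring Qb) (hP : P.LiesOverPrime p)
    (hμ : ∃ μ : Lam →ₗ[A] IsLocalRing.ResidueField A, μ ≠ 0 ∧
      ∀ h ∈ P.inertiaSubgroupIn ℚ, ∀ x : Lam, μ (ρL h x) = μ x) :
    ∃ lam : Lam →ₗ[A] A, lam ≠ 0 ∧ ∀ h ∈ P.inertiaSubgroupIn ℚ, ∀ x : Lam, lam (ρL h x) = lam x := by
  obtain ⟨μ, hμ0, hμI⟩ := hμ
  have hX : ∀ z : IsLocalRing.ResidueField A, (p : A) • z = 0 := by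
    intro z
    rw [Algebra.smul_def]
    have : algebraMap A (IsLocalRing.ResidueField A) (p : A) = 0 :=
      (IsLocalRing.residue_eq_zero_iff _).2 hpA
    rw [this, zero_mul]
  exact exists_invariant_functional_bundled hp2 hS19 Lam hsat ρL hcoe P hP hX μ hμ0 hμI

end Fermat.Agent.ORD.Old.OldPoint69
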