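/-
ORD (S33), brick O1 core (helper68).  **Finite levels of Galois-stable saturated lattices in
`A ⊗ T_p J` are flat models.**

Abstract in the abelian group `J` with `G_ℚ`-action (think `J = J₀(M)(ℚ̄)`, `p ∤ M`):
if `J[pⁿ]` is a flat model (the conclusion of S19 at level `M`), `A` is a finite free `ℤ_p`-algebra and
`Lam ≤ A ⊗[ℤ_p] T_p J` is a `G_ℚ`-stable `A`-submodule which is `p`-saturated, then `Lam / pⁿ Lam`
is a flat model (global, hence local at `p`).

* `coordMap b i : A ⊗[R] T →ₗ[R] T` : coordinates w.r.t. an `R`-basis `b` of `A`;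
* `levelMap b n : A ⊗ T_p J →+ (ι → J[pⁿ])`, equivariant, with kernel `pⁿ (A ⊗ T_p J)`;
* `flatModel_of_quotMap`, `localFlatModel_of_quotMap` : the statement for ANY presentation
  `q : Lam →+ Q'` of the quotient `Lam / pⁿ Lam` (take `q := N.mkQ.toAddMonoidHom` for a submodule
  quotient, `QuotientAddGroup.mk' K` for a group quotient).
-/
import Mathlib
import Fermat.Agent.ES.J.TateModule13
import Fermat.Agent.FFJ.Glue.GlobalClosure68
import Fermat.Agent.TW.FF.LocalOfGlobal68

set_option autoImplicit false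

noncomputable section

open TensorProduct

namespace Fermat.Agent.ORD.Old.AmbientFlat68

open Fermat.Agent.ES.J.TateModule13 Fermat.Agent.TW.FF.FlatModel68

/-! ### Coordinates on `A ⊗ T` -/

section Coord

variable {R : Type*} [CommRing R] {A : Type*} [CommRing A] [Algebra R A]
  {T : Type*} [AddCommGroup T] [Module R T] {ι : Type*} (b : Module.Basis ι R A)

/-- the `i`-th coordinate `A ⊗ T → T` with respect to an `R`-basis of `A`. -/
def coordMap (i : ι) : A ⊗[R] T →ₗ[R] T :=
  (TensorProduct.lid R T).toLinearMap ∘ₗ (b.coord i).rTensor T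

@[simp] theorem coordMap_tmul (i : ι) (a : A) (t : T) :
    coordMap b i (a ⊗ₜ[R] t) = b.repr a i • t := by
  simp [coordMap]

/-- coordinates commute with base-changed endomorphisms. -/
theorem coordMap_baseChange (i : ι) (f : T →ₗ[R] T) (w : A ⊗[R] T) :
    coordMap b i (f.baseChange A w) = f (coordMap b i w) := by
  induction w using TensorProduct.induction_on with
  | zero => simp
  | tmul a t => simp
  | add x y hx hy => simp [hx, hy]

theorem eq_sum_coordMap [Fintype ι] (w : A ⊗[R] T) :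
    w = ∑ i, b i ⊗ₜ[R] coordMap b i w := by
  induction w using TensorProduct.induction_on with
  | zero => simp
  | tmul a t =>
    simp only [coordMap_tmul]
    conv_lhs => rw [← b.sum_repr a, TensorProduct.sum_tmul]
    refine Finset.sum_congr rfl fun i _ => ?_
    rw [TensorProduct.smul_tmul]
  | add x y hx hy =>
    conv_lhs => rw [hx, hy]
    rw [← Finset.sum_add_distrib]
    refine Finset.sum_congr rfl fun i _ => ?_
    rw [map_add, TensorProduct.tmul_add]

/-- `w ∈ c (A ⊗ T)` iff all coordinates of `w` are in `c T`. -/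
theorem forall_coordMap_iff [Fintype ι] (c : R) (w : A ⊗[R] T) :
    (∀ i, ∃ y : T, coordMap b i w = c • y) ↔ ∃ w' : A ⊗[R] T, w = algebraMap R A c • w' := by
  constructor
  · intro h
    choose y hy using h
    refine ⟨∑ i, b i ⊗ₜ[R] y i, ?_⟩
    conv_lhs => rw [eq_sum_coordMap b w]
    rw [Finset.smul_sum]
    refine Finset.sum_congr rfl fun i _ => ?_
    rw [hy i, TensorProduct.smul_tmul', smul_eq_mul, ← Algebra.smul_def,
      TensorProduct.smul_tmul]
  · rintro ⟨w', rfl⟩ i
    refine ⟨coordMap b i w', ?_⟩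
    rw [algebraMap_smul, map_smul]

end Coord

/-! ### The level maps `A ⊗ T_p J → (J[pⁿ])^ι` -/

section Level

variable {p : ℕ} [hp : Fact p.Prime] {J : Type} [AddCommGroup J]
  {A : Type} [CommRing A] [Algebra ℤ_[p] A] {ι : Type} [Fintype ι] (b : Module.Basis ι ℤ_[p] A)

/-- `J[pⁿ]`, in the shape used by the frozen S19. -/
abbrev Tors (p : ℕ) (J : Type) [AddCommGroup J] (n : ℕ) : Type :=
  ↥(Submodule.torsionBy ℤ J ((p : ℤ) ^ n))

/-- the projection `T_p J → J[pⁿ]`. -/
def projTors (n : ℕ) : TateModule p J →+ Tors p J n where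
  toFun x := ⟨proj n x, by
    rw [Submodule.mem_torsionBy_iff]
    have h := pow_smul_proj n x
    rw [← natCast_zsmul, Nat.cast_pow] at h
    exact h⟩
  map_zero' := by
    apply Subtype.ext
    simp
  map_add' x y := by
    apply Subtype.ext
    simp

@[simp] theorem coe_projTors (n : ℕ) (x : TateModule p J) :
    ((projTors n x : Tors p J n) : J) = proj n x := rfl

/-- the level-`n` map `A ⊗ T_p J → (J[pⁿ])^ι`. -/
def levelMap (n : ℕ) : A ⊗[ℤ_[p]] TateModule p J →+ (ι → Tors p J n) where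
  toFun w i := projTors n (coordMap b i w)
  map_zero' := by
    funext i
    simp
  map_add' x y := by
    funext i
    simp

omit [Fintype ι] in
theorem levelMap_apply (n : ℕ) (w : A ⊗[ℤ_[p]] TateModule p J) (i : ι) :
    ((levelMap b n w i : Tors p J n) : J) = proj n (coordMap b i w) := rfl

/-- **the kernel of the level map is `pⁿ (A ⊗ T_p J)`.** -/
theorem levelMap_eq_zero_iff (n : ℕ) (w : A ⊗[ℤ_[p]] TateModule p J) :
    levelMap b n w = 0 ↔ ∃ w' : A ⊗[ℤ_[p]] TateModule p J, w = ((p : A) ^ n) • w' := by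
  have hc : algebraMap ℤ_[p] A ((p : ℤ_[p]) ^ n) = (p : A) ^ n := by
    rw [map_pow, map_natCast]
  rw [← hc, ← forall_coordMap_iff b]
  constructor
  · intro h i
    have hi : ((levelMap b n w i : Tors p J n) : J) = 0 := by rw [h]; rfl
    rw [levelMap_apply] at hi
    exact (proj_eq_zero_iff' n _).1 hi
  · intro h
    funext i
    apply Subtype.ext
    rw [levelMap_apply]
    exact (proj_eq_zero_iff' n _).2 (h i)

omit [Fintype ι] in
/-- the level map is equivariant. -/
theorem levelMap_baseChange {G : Type*} [Monoid G] [DistribMulAction G J] (n : ℕ) (g : G)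
    (w : A ⊗[ℤ_[p]] TateModule p J) (i : ι) :
    ((levelMap b n ((rho p J g).baseChange A w) i : Tors p J n) : J) =
      g • ((levelMap b n w i : Tors p J n) : J) := by
  rw [levelMap_apply, coordMap_baseChange, levelMap_apply]
  rfl

end Level

/-! ### The main statements -/

section Main

open Fermat.Agent.FFJ.Glue.GlobalClosure68

variable {p : ℕ} [hp : Fact p.Prime] {J : Type} [AddCommGroup J] [DistribMulAction GQ J]
  {A : Type} [CommRing A] [Algebra ℤ_[p] A]

omit [DistribMulAction GQ J] in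
/-- `p`-saturation gives `pⁿ`-saturation. -/
theorem sat_pow (Lam : Submodule A (A ⊗[ℤ_[p]] TateModule p J))
    (hsat : ∀ w, (p : A) • w ∈ Lam → w ∈ Lam) (n : ℕ) (w : A ⊗[ℤ_[p]] TateModule p J)
    (h : ((p : A) ^ n) • w ∈ Lam) : w ∈ Lam := by
  induction n with
  | zero => simpa using h
  | succ n ih =>
    apply ih
    apply hsat
    rw [← mul_smul, ← pow_succ']
    exact h

variable [Module.Finite ℤ_[p] A] [Module.Free ℤ_[p] A]

/-- **O1, global form, for any presentation `q : Lam → Q'` of `Lam / pⁿ Lam`.**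
If `J[pⁿ]` is a flat model then so is `Lam / pⁿ Lam` for every `G_ℚ`-stable, `p`-saturated
`A`-submodule `Lam` of `A ⊗ T_p J` (`A` finite free over `ℤ_p`). -/
theorem flatModel_of_quotMap (n : ℕ) (actQ : GQ → Tors p J n → Tors p J n)
    (hactQ : ∀ σ (x : Tors p J n), ((actQ σ x : Tors p J n) : J) = σ • (x : J))
    (hJ : FlatModel p (Tors p J n) actQ)
    (Lam : Submodule A (A ⊗[ℤ_[p]] TateModule p J))
    (hsat : ∀ w, (p : A) • w ∈ Lam → w ∈ Lam)
    (hstab : ∀ (σ : GQ) (w : A ⊗[ℤ_[p]] TateModule p J), w ∈ Lam →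
      (rho p J σ).baseChange A w ∈ Lam)
    {Q' : Type} [AddCommGroup Q'] (q : Lam →+ Q') (hq : Function.Surjective q)
    (hker : ∀ x : Lam, q x = 0 ↔ ∃ y : Lam, x = ((p : A) ^ n) • y)
    (act' : GQ → Q' → Q')
    (hact' : ∀ σ (x : Lam), act' σ (q x) = q ⟨(rho p J σ).baseChange A x, hstab σ x x.2⟩) :
    FlatModel p Q' act' := by
  classical
  let b := Module.Free.chooseBasis ℤ_[p] A
  -- the level map restricted to `Lam`
  let Φ : Lam →+ (Module.Free.ChooseBasisIndex ℤ_[p] A → Tors p J n) :=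
    (levelMap b n).comp Lam.subtype.toAddMonoidHom
  have hΦ : ∀ x : Lam, Φ x = levelMap b n (x : A ⊗[ℤ_[p]] TateModule p J) := fun x => rfl
  have hΦker : ∀ x : Lam, Φ x = 0 ↔ ∃ y : Lam, x = ((p : A) ^ n) • y := by
    intro x
    rw [hΦ, levelMap_eq_zero_iff]
    constructor
    · rintro ⟨w', hw'⟩
      have hw'mem : w' ∈ Lam := sat_pow Lam hsat n w' (hw' ▸ x.2)
      exact ⟨⟨w', hw'mem⟩, Subtype.ext hw'⟩
    · rintro ⟨y, rfl⟩
      exact ⟨y, rfl⟩
  have hle : q.ker ≤ Φ.ker := by
    intro x hx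
    rw [AddMonoidHom.mem_ker] at hx ⊢
    exact (hΦker x).2 ((hker x).1 hx)
  let j : Q' →+ (Module.Free.ChooseBasisIndex ℤ_[p] A → Tors p J n) :=
    q.liftOfSurjective hq ⟨Φ, hle⟩
  have hj : ∀ x : Lam, j (q x) = Φ x := fun x =>
    q.liftOfRightInverse_comp_apply _ _ ⟨Φ, hle⟩ x
  have hjinj : Function.Injective j := by
    rw [injective_iff_map_eq_zero]
    intro y hy
    obtain ⟨x, rfl⟩ := hq y
    rw [hj] at hy
    exact (hker x).2 ((hΦker x).1 hy)
  have hpi : FlatModel p (Module.Free.ChooseBasisIndex ℤ_[p] A → Tors p J n)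
      (fun σ f i => actQ σ (f i)) := FlatModel.pi (fun _ => hJ)
  refine FlatModel.of_injective j hjinj (fun σ y => ?_) hpi
  obtain ⟨x, rfl⟩ := hq y
  rw [hact', hj, hj]
  funext i
  apply Subtype.ext
  rw [hactQ]
  exact levelMap_baseChange b n σ (x : A ⊗[ℤ_[p]] TateModule p J) i

/-- **O1, local form, for any presentation `q : Lam → Q'` of `Lam / pⁿ Lam`.** -/
theorem localFlatModel_of_quotMap (n : ℕ) (actQ : GQ → Tors p J n → Tors p J n)
    (hactQ : ∀ σ (x : Tors p J n), ((actQ σ x : Tors p J n) : J) = σ • (x : J))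
    (hJ : FlatModel p (Tors p J n) actQ)
    (Lam : Submodule A (A ⊗[ℤ_[p]] TateModule p J))
    (hsat : ∀ w, (p : A) • w ∈ Lam → w ∈ Lam)
    (hstab : ∀ (σ : GQ) (w : A ⊗[ℤ_[p]] TateModule p J), w ∈ Lam →
      (rho p J σ).baseChange A w ∈ Lam)
    {Q' : Type} [AddCommGroup Q'] (q : Lam →+ Q') (hq : Function.Surjective q)
    (hker : ∀ x : Lam, q x = 0 ↔ ∃ y : Lam, x = ((p : A) ^ n) • y)
    (act' : GQ → Q' → Q')
    (hact' : ∀ σ (x : Lam), act' σ (q x) = q ⟨(rho p J σ).baseChange A x, hstab σ x x.2⟩) :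
    LocalFlatModel p Q' (fun τ => act' (localGaloisToGlobal p τ)) :=
  Fermat.Agent.TW.FF.LocalOfGlobal68.localFlatModel_of_flatModel p
    (flatModel_of_quotMap n actQ hactQ hJ Lam hsat hstab q hq hker act' hact')

end Main

end Fermat.Agent.ORD.Old.AmbientFlat68
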